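import Fermat.Agent.LT.G.FamilyRam
import Fermat.Agent.LTG.G.Family
import Fermat.Agent.LT.G.InsT
import Fermat.Agent.LT.Geo.EThreeB
import Fermat.Agent.LTG.Geo.LocRB

/-!
# LT/G: insertions at the ramified places and of local projectors at split places

* `ramL_G G`, `insRam` : insertion of the Hecke operators at all good ramified places;
* `UnitIR.insRam : Good (insRam k)`;
* `LocProj G` : local projectors at finitely many split places, compatible with `K`, and the
  functions at the bad ramified places;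
* `insE`.
-/

set_option autoImplicit false
set_option linter.unusedSectionVars false

open NumberField IsDedekindDomain Matrix MeasureTheory
open Fermat.Agent.LT.D
open Fermat.Agent.LT.B (IsTestKer autK appK)
open scoped ENNReal

namespace Fermat.LT.GeoDat2
export Fermat.LT.GeoDatum (pl_cube_eq)
end Fermat.LT.GeoDat2

namespace Fermat.LT.GeoDat2

variable {K L : Type} [Field K] [NumberField K] [Field L] [NumberField L] [Algebra K L]
variable {C : Cub K L}

/-! ### The ramified places -/

/-- the ramified places of `K` -/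
noncomputable def ramLK (G : GeoDat2 C) : List (Pl K) := G.ram_fin.toFinset.toList

open Classical in
/-- the good ramified places of `K` -/
noncomputable def ramGK (G : GeoDat2 C) : List (Pl K) :=
  G.ramLK.filter fun v => G.DL.n (G.up v) = 0

open Classical in
/-- the bad ramified places of `K` -/
noncomputable def ramBK (G : GeoDat2 C) : List (Pl K) :=
  G.ramLK.filter fun v => G.DL.n (G.up v) ≠ 0

/-- the good ramified places of `L` -/
noncomputable def ramL_G (G : GeoDat2 C) : List (Pl L) := G.ramGK.map G.up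

variable {G : GeoDat2 C}

theorem mem_ramLK {v : Pl K} : v ∈ G.ramLK ↔ Ram C v (G.up v) := by
  unfold ramLK
  rw [Finset.mem_toList, Set.Finite.mem_toFinset]
  rfl

theorem nodup_ramLK : G.ramLK.Nodup := Finset.nodup_toList _

theorem mem_ramGK {v : Pl K} : v ∈ G.ramGK ↔ Ram C v (G.up v) ∧ G.DL.n (G.up v) = 0 := by
  unfold ramGK
  rw [List.mem_filter, mem_ramLK, decide_eq_true_iff]

theorem mem_ramBK {v : Pl K} : v ∈ G.ramBK ↔ Ram C v (G.up v) ∧ G.DL.n (G.up v) ≠ 0 := by
  unfold ramBK
  rw [List.mem_filter, mem_ramLK, decide_eq_true_iff]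

theorem nodup_ramGK : G.ramGK.Nodup := nodup_ramLK.filter _

theorem nodup_ramBK : G.ramBK.Nodup := nodup_ramLK.filter _

theorem nodup_ramL : G.ramL_G.Nodup := nodup_ramGK.map up_injective

theorem up_mem_ramL {v : Pl K} :
    G.up v ∈ G.ramL_G ↔ Ram C v (G.up v) ∧ G.DL.n (G.up v) = 0 := by
  unfold ramL_G
  rw [List.mem_map, ← mem_ramGK]
  constructor
  · rintro ⟨a, ha, h⟩
    rwa [← up_injective h]
  · exact fun h => ⟨v, h, rfl⟩

theorem mem_ramL {w : Pl L} :
    w ∈ G.ramL_G ↔ ∃ v, (Ram C v (G.up v) ∧ G.DL.n (G.up v) = 0) ∧ G.up v = w := by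
  unfold ramL_G
  rw [List.mem_map]
  simp only [mem_ramGK]

/-- insertion of the Hecke operators at the ramified places -/
noncomputable def insRam (k : Pure G.DL.toDatum) : Pure G.DL.toDatum :=
  Pure.insT (t := T1) (fun w => biInv_T1_of_le (G.DL.le_std w)) (fun w => finS_T1_lvl _ w)
    G.ramL_G k

theorem insRam_f_ram (k : Pure G.DL.toDatum) {v : Pl K} (hv : Ram C v (G.up v))
    (hn : G.DL.n (G.up v) = 0) :
    (insRam k).f (G.up v) = convF (G.DL.H (G.up v)) (T1 (G.up v)) (k.f (G.up v)) :=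
  Pure.insT_f_mem _ _ nodup_ramL k (up_mem_ramL.mpr ⟨hv, hn⟩)

theorem insRam_f_ne (k : Pure G.DL.toDatum) {w : Pl L}
    (h : ∀ v, Ram C v (G.up v) → G.DL.n (G.up v) = 0 → G.up v ≠ w) :
    (insRam k).f w = k.f w := by
  refine Pure.insT_f_notMem _ _ k fun hw => ?_
  obtain ⟨v, hv, e⟩ := mem_ramL.mp hw
  exact h v hv.1 hv.2 e

theorem insRam_f_bad (k : Pure G.DL.toDatum) {w : Pl L} (h : G.DL.n w ≠ 0) :
    (insRam k).f w = k.f w :=
  insRam_f_ne k fun v _ hn e => h (by rw [← e]; exact hn)

theorem insRam_a (k : Pure G.DL.toDatum) : (insRam k).a = k.a := Pure.insT_a _ _ _ k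

theorem rad_insRam {k : Pure G.DL.toDatum} (h : k.Rad) : (insRam k).Rad := by
  intro i
  rw [insRam_a]
  exact h i

theorem UnitIR.insRam {k : Pure G.DL.toDatum} (h : UnitIR k) : Good (insRam k) where
  inert v hv := by
    rw [insRam_f_ne, h.inert v hv, (G.H_inert v hv).1]
    intro v' hv' _ e
    have e1 := up_injective e
    subst e1
    exact hv.not_ram_deep hv'
  ram v hv hn := by
    rw [insRam_f_ram k hv hn, h.ram v hv,
      convF_unitF_right (biInv_T1_of_le (G.DL.le_std (G.up v)))]
  bad v hv hn := by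
    refine ⟨1, 0, ?_⟩
    rw [insRam_f_bad k hn, h.ram v hv, (G.H_bad v hv hn).1]
    funext g
    unfold unitF tfn
    split_ifs <;> rfl

/-- insertions of test operators commute with `insRam` -/
theorem insRam_insLL (l : List G.Idx) (k : Pure G.DL.toDatum) :
    insRam (insLL l k) = insLL l (insRam k) := by
  induction l with
  | nil => rfl
  | cons s l ih =>
    rw [insLL_cons, insLL_cons, ← ih]
    rcases s with v | g
    · refine Pure.insT_insL _ _ _ (fun hv => ?_) (biT G v) (fiT G v)
      exact (up_mem_ramL.mp hv).1.not_split v.2.1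
    · exact Pure.insT_insAL _ _ _ _ _ (radK_ppi g.2.1)

/-! ### Local projectors at split places -/

/-- Local projectors at finitely many split places. -/
structure LocProj (G : GeoDat2 C) where
  /-- the places of `K` -/
  lK : List (Pl K)
  nodup : lK.Nodup
  split : ∀ v ∈ lK, Split C v (G.up v)
  ne : ∀ v ∈ lK, G.DL.H (G.up v) ≠ stdH (G.up v)
  /-- the function on the `L`-side -/
  tL : Pl L → G2 L → ℂ
  /-- the function on the `K`-side -/
  tK : Pl K → G2 K → ℂ
  biL : ∀ w, BiInv (G.DL.H w) (tL w)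
  finL : ∀ w, FinS (G.DL.H w) (tL w)
  biK : ∀ v, BiInv (G.DK.H v) (tK v)
  finK : ∀ v, FinS (G.DK.H v) (tK v)
  inc : ∀ v ∈ lK, ∀ (j : Fin 3) (g : G2 K),
    tL (((pl C).symm)^[(j : ℕ)] (G.up v)) (Cub.Inc g) = tK v g
  idem : ∀ v ∈ lK, convF (G.DK.H v) (tK v) (tK v) = tK v
  /-- the function at the bad ramified places -/
  bad : ∀ v, Ram C v (G.up v) → G.DL.n (G.up v) ≠ 0 → tL (G.up v) = ew (G.up v) (3 * G.mb)

/-- the three places above a split place -/
noncomputable def three (G : GeoDat2 C) (v : Pl K) : List (Pl L) :=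
  [G.up v, (pl C).symm (G.up v), (pl C).symm ((pl C).symm (G.up v))]

theorem down_of_mem_three {v : Pl K} {w : Pl L} (h : w ∈ G.three v) : G.down w = v := by
  unfold three at h
  rw [List.mem_cons, List.mem_cons, List.mem_singleton] at h
  rcases h with rfl | rfl | rfl
  · exact G.down_up v
  · rw [down_symm, G.down_up]
  · rw [down_symm, down_symm, G.down_up]

theorem mem_three_iff {v : Pl K} {w : Pl L} : w ∈ G.three v ↔ G.down w = v := by
  refine ⟨down_of_mem_three, ?_⟩
  rintro rfl
  unfold three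
  rw [List.mem_cons, List.mem_cons, List.mem_singleton]
  rcases G.up_down w with h | h | h
  · exact Or.inl h
  · refine Or.inr (Or.inr ?_)
    rw [Equiv.eq_symm_apply, Equiv.eq_symm_apply]
    conv_lhs => rw [h]
    exact pl_cube_eq _
  · refine Or.inr (Or.inl ?_)
    rw [Equiv.eq_symm_apply]
    conv_lhs => rw [h]
    exact pl_cube_eq _

theorem nodup_three {v : Pl K} (hv : pl C (G.up v) ≠ G.up v) : (G.three v).Nodup := by
  unfold three
  have h1 : (pl C).symm (G.up v) ≠ G.up v := by
    intro h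
    exact hv (by rw [Equiv.symm_apply_eq] at h; exact h.symm)
  have h2 : (pl C).symm ((pl C).symm (G.up v)) ≠ (pl C).symm (G.up v) := fun h =>
    h1 ((pl C).symm.injective h)
  have h3 : (pl C).symm ((pl C).symm (G.up v)) ≠ G.up v := by
    intro h
    rw [Equiv.symm_apply_eq, Equiv.symm_apply_eq] at h
    have := pl_cube_eq (C := C) (G.up v)
    rw [← h] at this
    exact hv this
  rw [List.nodup_cons, List.nodup_cons]
  refine ⟨?_, ?_, List.nodup_singleton _⟩
  · rw [List.mem_cons, List.mem_singleton, not_or]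
    exact ⟨h1.symm, h3.symm⟩
  · rw [List.mem_singleton]
    exact h2.symm

namespace LocProj

variable (E : LocProj G)

/-- all places of `K` -/
noncomputable def lAll : List (Pl K) := E.lK ++ G.ramBK

theorem mem_lAll {v : Pl K} :
    v ∈ E.lAll ↔ v ∈ E.lK ∨ (Ram C v (G.up v) ∧ G.DL.n (G.up v) ≠ 0) := by
  unfold lAll
  rw [List.mem_append, mem_ramBK]

/-- the places of `L` -/
noncomputable def lL : List (Pl L) := E.lK.flatMap G.three ++ G.ramBK.map G.up

theorem mem_lL {w : Pl L} : w ∈ E.lL ↔ G.down w ∈ E.lAll := by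
  unfold lL
  rw [List.mem_append, List.mem_flatMap, List.mem_map, E.mem_lAll]
  refine or_congr ?_ ?_
  · constructor
    · rintro ⟨v, hv, hw⟩
      rwa [down_of_mem_three hw]
    · exact fun h => ⟨_, h, mem_three_iff.mpr rfl⟩
  · constructor
    · rintro ⟨v, hv, rfl⟩
      rw [G.down_up]
      exact mem_ramBK.mp hv
    · intro h
      exact ⟨G.down w, mem_ramBK.mpr h, (eq_up_of_fix h.1.fix rfl).symm⟩

theorem nodup_lL : E.lL.Nodup := by
  unfold lL
  rw [List.nodup_append]
  refine ⟨?_, nodup_ramBK.map up_injective, ?_⟩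
  · rw [List.nodup_flatMap]
    refine ⟨fun v hv => nodup_three (E.split v hv).ne, ?_⟩
    refine E.nodup.imp fun {a b} hab => ?_
    intro w hwa hwb
    exact hab ((down_of_mem_three hwa).symm.trans (down_of_mem_three hwb))
  · intro a ha b hb hab
    subst hab
    rw [List.mem_flatMap] at ha
    rw [List.mem_map] at hb
    obtain ⟨v, hv, hw⟩ := ha
    obtain ⟨v', hv', rfl⟩ := hb
    have h1 := down_of_mem_three hw
    rw [G.down_up] at h1
    subst h1
    exact (mem_ramBK.mp hv').1.not_split (E.split _ hv)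

/-- insertion of the local projectors on the `L`-side -/
noncomputable def insE (k : Pure G.DL.toDatum) : Pure G.DL.toDatum :=
  Pure.insT E.biL E.finL E.lL k

theorem insE_f_mem (k : Pure G.DL.toDatum) {w : Pl L} (h : G.down w ∈ E.lAll) :
    (E.insE k).f w = convF (G.DL.H w) (E.tL w) (k.f w) :=
  Pure.insT_f_mem _ _ E.nodup_lL k (E.mem_lL.mpr h)

theorem insE_f_ne (k : Pure G.DL.toDatum) {w : Pl L} (h : G.down w ∉ E.lAll) :
    (E.insE k).f w = k.f w := Pure.insT_f_notMem _ _ k fun h' => h (E.mem_lL.mp h')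

theorem insE_a (k : Pure G.DL.toDatum) : (E.insE k).a = k.a := Pure.insT_a _ _ _ k

theorem insE_mul (k k' : Pure G.DL.toDatum) : (E.insE k).mul k' = E.insE (k.mul k') :=
  Pure.insT_mul _ _ _ k k'

theorem rad_insE {k : Pure G.DL.toDatum} (h : k.Rad) : (E.insE k).Rad := by
  intro i
  rw [insE_a]
  exact h i

theorem notMem_lAll_inert {v : Pl K} (hv : Inert C v (G.up v)) : v ∉ E.lAll := by
  intro h
  rcases E.mem_lAll.mp h with h | h
  · exact hv.not_split (E.split v h)
  · exact hv.not_ram_deep h.1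

theorem notMem_lAll_ram {v : Pl K} (hv : Ram C v (G.up v)) (hn : G.DL.n (G.up v) = 0) :
    v ∉ E.lAll := by
  intro h
  rcases E.mem_lAll.mp h with h | h
  · exact hv.not_split (E.split v h)
  · exact h.2 hn

theorem mem_lAll_bad {v : Pl K} (hv : Ram C v (G.up v)) (hn : G.DL.n (G.up v) ≠ 0) :
    v ∈ E.lAll := E.mem_lAll.mpr (Or.inr ⟨hv, hn⟩)

/-- `k` is a unit at the places of `E` -/
def Unit (k : Pure G.DL.toDatum) : Prop :=
  ∀ w, G.down w ∈ E.lAll → k.f w = unitF (G.DL.H w)

variable {E}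

theorem insE_f_bad {k : Pure G.DL.toDatum} (hu : E.Unit k) {v : Pl K} (hv : Ram C v (G.up v))
    (hn : G.DL.n (G.up v) ≠ 0) : (E.insE k).f (G.up v) = ew (G.up v) (3 * G.mb) := by
  have h1 : G.down (G.up v) ∈ E.lAll := by
    rw [G.down_up]
    exact E.mem_lAll_bad hv hn
  rw [E.insE_f_mem k h1, hu _ h1, convF_unitF_right (E.biL _), E.bad v hv hn]

theorem ew_eq_tfn {F : Type} [Field F] [NumberField F] (w : Pl F) (M : ℕ) :
    ew w M = tfn (HT w M) (HB w M) (1 - 1 / (qv w : ℂ)) (-(1 / (qv w : ℂ))) :=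
  ew_eq_shf w M

theorem good_insE {k : Pure G.DL.toDatum} (h : Good k) (hu : E.Unit k) : Good (E.insE k) where
  inert v hv := by
    rw [E.insE_f_ne, h.inert v hv]
    rw [G.down_up]
    exact E.notMem_lAll_inert hv
  ram v hv hn := by
    rw [E.insE_f_ne, h.ram v hv hn]
    rw [G.down_up]
    exact E.notMem_lAll_ram hv hn
  bad v hv hn := ⟨_, _, by rw [insE_f_bad hu hv hn, ew_eq_tfn]⟩

variable (E)

theorem up_notMem_lL (v : G.SpPl) : G.up v.1 ∉ E.lL := by
  intro h
  have h1 := E.mem_lL.mp h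
  rw [G.down_up] at h1
  rcases E.mem_lAll.mp h1 with h2 | h2
  · exact E.ne _ h2 v.2.2.1
  · exact h2.1.not_split v.2.1

theorem insE_ins1L (s : G.Idx) (k : Pure G.DL.toDatum) :
    E.insE (ins1L s k) = ins1L s (E.insE k) := by
  rcases s with v | g
  · exact Pure.insT_insL _ _ _ (E.up_notMem_lL v) (biT G v) (fiT G v)
  · exact Pure.insT_insAL _ _ _ _ _ (radK_ppi g.2.1)

theorem insE_insLL (l : List G.Idx) (k : Pure G.DL.toDatum) :
    E.insE (insLL l k) = insLL l (E.insE k) := by
  induction l with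
  | nil => rfl
  | cons s l ih => rw [insLL_cons, insLL_cons, insE_ins1L, ih]

variable {E}

theorem Unit.insLL {k : Pure G.DL.toDatum} (h : E.Unit k) (l : List G.Idx) :
    E.Unit (insLL l k) := by
  intro w hw
  rw [insLL_f_ne, h w hw]
  rintro v - rfl
  rw [G.down_up] at hw
  rcases E.mem_lAll.mp hw with h2 | h2
  · exact E.ne _ h2 v.2.2.1
  · exact h2.1.not_split v.2.1

theorem Unit.insRam {k : Pure G.DL.toDatum} (h : E.Unit k) : E.Unit (insRam k) := by
  intro w hw
  rw [insRam_f_ne, h w hw]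
  rintro v hv hn rfl
  rw [G.down_up] at hw
  exact E.notMem_lAll_ram hv hn hw

theorem Unit.mul {k k' : Pure G.DL.toDatum} (h : E.Unit k) (h' : E.Unit k') :
    E.Unit (k.mul k') := by
  intro w hw
  rw [Pure.mul_f, h w hw, h' w hw, convF_unitF_left (biInv_unitF _)]

end LocProj

theorem UnitIR.insLL {l : List G.Idx} {k : Pure G.DL.toDatum} (h : UnitIR k) :
    UnitIR (insLL l k) where
  inert v hv := by
    rw [insLL_f_up (fun h' => h'.ne hv.fix)]
    exact h.inert v hv
  ram v hv := by
    rw [insLL_f_up (fun h' => h'.ne hv.fix)]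
    exact h.ram v hv

end Fermat.LT.GeoDat2
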