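import Fermat.Agent.LT.G.SphConv2
import Fermat.Agent.LTG.Geo.BMul
import Fermat.Agent.LT.G.SphConv
import Fermat.Agent.LT.G.InsT
import Fermat.Agent.LT.B.SpecTw

/-!
# LT/G: insertions at a list of places and finite kernels; spherical families

* `kT t l` : the finite kernel of the local functions `t w`, `w ∈ l`; `isFinTest_kT`, `commP_kT`,
  `opF_kT : opF (kT t l) = opT t l`;
* `Pure.ker_insT`, `PS.ker_insT`, `PS.ker_mul_insT`;
* `Pure.IsTF` : all finite components are of the form `tF w Q`; `Pure.IsTF.mem_Sph`,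
  `PS.mem_Sph_of_isTF`, `GeoDat2.isTF_aPure`.
-/

set_option autoImplicit false
set_option linter.unusedSectionVars false

open NumberField IsDedekindDomain Matrix MeasureTheory
open Fermat.Agent.LT.B
open Fermat.Agent.LT.D (Cub)

namespace Fermat.LT

section kT

variable {F : Type} [Field F] [NumberField F] {U : Level F} {D : Datum F}
  {t : Pl F → G2 F → ℂ}

namespace PS

end PS

/-! ### Components given by polynomials in the Hecke operators -/

end kT

namespace GeoDat2

variable {K L : Type} [Field K] [NumberField K] [Field L] [NumberField L] [Algebra K L]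
variable {C : Cub K L} {G : GeoDat2 C}

open Fermat.Agent.LT.CTree (tF tF_good tF_bad tF_one sf sf_congr convF_tF)

theorem fs_tF {k : Pure G.DL.toDatum} (h : k.IsTF) {v : Pl K} (hv : Split C v (G.up v))
    (hn : G.U.n v = 0) (j : Fin 3) : ∃ Q : Polynomial ℂ, fs k v j = tF G.U v Q := by
  obtain ⟨Q, hQ⟩ := h (G.wj v j)
  by_cases hj : G.DL.n (G.wj v j) = 0
  · refine ⟨Q, ?_⟩
    rw [tF_good hn]
    funext g
    change k.f (G.wj v j) (Cub.Inc g) = _
    rw [hQ, tF_good (U := G.DL.toLevel) hj, sphF_wj_Inc hv j,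
      sf_congr (w := G.wj v j) (w' := v) ((qv_wj v j).trans hv.q_eq)]
  · refine ⟨1, ?_⟩
    rw [tF_one, G.U_eq v fun h' => h'.not_split hv]
    refine fs_eq_unitF k hv j ?_
    change k.f (G.wj v j) = unitF (G.DL.H (G.wj v j))
    rw [hQ, tF_bad (U := G.DL.toLevel) hj]

/-- The matching of the spherical pure tensors. -/
theorem isTF_aPure {k : Pure G.DL.toDatum} (h : k.IsTF)
    (hn : ∀ v, Split C v (G.up v) → ∀ j : Fin 3, G.DL.n (G.wj v j) = 0 → G.U.n v = 0) :
    (aPure k).IsTF := by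
  intro v
  change ∃ Q : Polynomial ℂ, af k v = tF G.U v Q
  by_cases hv : Split C v (G.up v)
  · rw [af_split k hv]
    have hU : G.U0.H v = G.U.H v := (G.U_eq v fun h' => h'.not_split hv).symm
    by_cases hn0 : G.U.n v = 0
    · obtain ⟨Q0, h0⟩ := fs_tF h hv hn0 0
      obtain ⟨Q1, h1⟩ := fs_tF h hv hn0 1
      obtain ⟨Q2, h2⟩ := fs_tF h hv hn0 2
      refine ⟨Q0 * Q1 * Q2, ?_⟩
      rw [tH_f, h0, h1, h2, hU, convF_tF G.U v Q0 Q1, convF_tF G.U v (Q0 * Q1) Q2]
    · refine ⟨1, ?_⟩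
      have e : ∀ j : Fin 3, fs k v j = unitF (G.U0.H v) := by
        intro j
        refine fs_eq_unitF k hv j ?_
        change k.f (G.wj v j) = unitF (G.DL.H (G.wj v j))
        obtain ⟨Q, hQ⟩ := h (G.wj v j)
        rw [hQ, tF_bad (U := G.DL.toLevel) fun h' => hn0 (hn v hv j h')]
      rw [tH_f, e 0, e 1, e 2, convF_unitF_left (biInv_unitF _),
        convF_unitF_left (biInv_unitF _), tF_one, hU]
  · rw [af_not_split k hv]
    exact ⟨1, by rw [tF_one]⟩

/-- the hypothesis of `isTF_aPure` from the levels -/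
theorem n_of_split (hs : ∀ v, Split C v (G.up v) → G.U.n v = G.DL.n (G.up v))
    (hpl : ∀ w, G.DL.n (pl C w) = 0 ↔ G.DL.n w = 0) (v : Pl K) (hv : Split C v (G.up v))
    (j : Fin 3) (h : G.DL.n (G.wj v j) = 0) : G.U.n v = 0 := by
  rw [hs v hv]
  have key : ∀ j : ℕ, G.DL.n (G.wj v j) = 0 → G.DL.n (G.up v) = 0 := by
    intro j
    induction j with
    | zero => exact fun h => h
    | succ j ih =>
      intro h
      apply ih
      rw [← G.pl_wj_succ v j]
      exact (hpl _).mpr h
  exact key j h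

theorem mem_Sph_aPure {P : LT.PS G.DL.toDatum} (hr : P.Rad) (h : ∀ j, (P.k j).IsTF)
    (hn : ∀ v, Split C v (G.up v) → ∀ j : Fin 3, G.DL.n (G.wj v j) = 0 → G.U.n v = 0) :
    (P.map aPure).ker ∈ Sph G.DK {v | G.DK.n v = 0} :=
  PS.mem_Sph_of_isTF (Q := P.map aPure) (fun j => rad_aPure (hr j)) fun j => isTF_aPure (h j) hn

end GeoDat2

end Fermat.LT
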