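import Fermat.Agent.LT.G.FamilyEv
import Fermat.Agent.LTG.G.FamilyMain
import Fermat.Agent.LT.B.SpecTrace

/-!
# LT/G: kernels and eigenvalues of the family

* `PS.ker_map_insL`, `PS.ker_map_insAL`, `PS.ker_map_insT` : the kernels of insertions;
* `isKS_insLL`, `isKS_insRam`, `isKS_insKL` : killed spherical kernels;
* `ev_insLL`, `ev_insRam`, `ev_insKL` : their eigenvalues;
* `exists_family_geo` : the geometric theorem for the family in the format `κ ∘ a ∘ b`.
-/

set_option autoImplicit false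
set_option linter.unusedSectionVars false

open NumberField IsDedekindDomain Matrix MeasureTheory
open Fermat.Agent.LT.D
open Fermat.Agent.LT.B (IsTestKer autK appK Sph IsKS Xi ev lam sp TX RX)
open Fermat.Agent.LT.CArch (IsTest hat)
open scoped ENNReal

namespace Fermat.LT

section general

variable {F : Type} [Field F] [NumberField F] {D : Datum F}

namespace PS

end PS

/-! ### Killed spherical kernels and eigenvalues -/

variable {P : Set (Pl F)} (hP : ∀ w ∈ P, D.n w = 0)

section T1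

variable {Q : PS D} {w : Pl F} (hw : w ∈ P) (ht : BiInv (D.H w) (T1 w))
  (hs : FinS (D.H w) (T1 w))

end T1

section A1

variable {Q : PS D} {i : D.I} {g : ℝ → ℂ} (hg : IsTest g) (hb : PPI (radK g))

end A1

end general

namespace GeoDat2

variable {K L : Type} [Field K] [NumberField K] [Field L] [NumberField L] [Algebra K L]
variable {C : Cub K L} {G : GeoDat2 C}

/-! ### The `L`-side -/

/-- the eigenvalues of the test operators on the `L`-side -/
noncomputable def evL (la : Pl L → ℂ) (s : G.DL.I → ℂ) : G.Idx → ℂ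
  | .inl v => (Fermat.Agent.LT.CTree.sq (G.up v.1) : ℂ) * la (G.up v.1)
  | .inr g => hat g.1 (s G.ι)

/-- the eigenvalues of the test operators on the `K`-side -/
noncomputable def evK (la : Pl K → ℂ) (s : G.DK.I → ℂ) : G.Idx → ℂ
  | .inl v => (Fermat.Agent.LT.CTree.sq v.1 : ℂ) * la v.1
  | .inr g => hat g.1 (s G.uK.default)

section Lside

variable {P : Set (Pl L)} (hP : ∀ w ∈ P, G.DL.n w = 0) (hS : ∀ v : G.SpPl, G.up v.1 ∈ P)
  {Q : LT.PS G.DL.toDatum}

include hP hS in
theorem isKS_ins1L (hQ : IsKS P Q.ker) (s : G.Idx) : IsKS P (Q.map (ins1L s)).ker := by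
  rcases s with v | g
  · exact isKS_T1 hP (hS v) (biT G v) (fiT G v) hQ
  · exact isKS_radK hP g.2.1 (radK_ppi g.2.1) hQ

include hP hS in
theorem isKS_insLL (hQ : IsKS P Q.ker) (l : List G.Idx) : IsKS P (Q.map (insLL l)).ker := by
  induction l with
  | nil => exact hQ
  | cons s l ih => exact isKS_ins1L hP hS (Q := Q.map (insLL l)) ih s

include hS in
theorem ev_ins1L (ξ : Xi G.DL.toDatum P) (hQ : IsKS P Q.ker) (s : G.Idx) :
    ev hP ξ (Q.map (ins1L s)).ker = evL (lam hP ξ) (sp hP ξ) s * ev hP ξ Q.ker := by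
  rcases s with v | g
  · exact ev_T1 hP (hS v) (biT G v) (fiT G v) ξ hQ.sph
  · exact ev_radK hP g.2.1 (radK_ppi g.2.1) ξ hQ.sph

include hS in
theorem ev_insLL (ξ : Xi G.DL.toDatum P) (hQ : IsKS P Q.ker) (l : List G.Idx) :
    ev hP ξ (Q.map (insLL l)).ker =
      (l.map (evL (lam hP ξ) (sp hP ξ))).prod * ev hP ξ Q.ker := by
  induction l with
  | nil =>
    rw [List.map_nil, List.prod_nil, one_mul]
    rfl
  | cons s l ih =>
    have h1 : Q.map (insLL (s :: l)) = (Q.map (insLL l)).map (ins1L s) := rfl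
    rw [h1, ev_ins1L hP hS ξ (isKS_insLL hP hS hQ l), ih, List.map_cons, List.prod_cons,
      mul_assoc]

variable (hR : ∀ v, Ram C v (G.up v) → G.DL.n (G.up v) = 0 → G.up v ∈ P)

include hP in
theorem isKS_insT1 {l : List (Pl L)} (hl : ∀ w ∈ l, w ∈ P) (hQ : IsKS P Q.ker) :
    IsKS P (Q.map (Pure.insT (t := T1) (fun w => biInv_T1_of_le (G.DL.le_std w))
      (fun w => finS_T1_lvl _ w) l)).ker := by
  induction l with
  | nil => exact hQ
  | cons w l ih =>
    exact isKS_T1 hP (Q := Q.map (Pure.insT (t := T1) (fun w => biInv_T1_of_le (G.DL.le_std w))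
      (fun w => finS_T1_lvl _ w) l)) (hl w List.mem_cons_self)
      (biInv_T1_of_le (G.DL.le_std w)) (finS_T1_lvl _ w)
      (ih fun v hv => hl v (List.mem_cons_of_mem _ hv))

theorem ev_insT1 (ξ : Xi G.DL.toDatum P) {l : List (Pl L)} (hl : ∀ w ∈ l, w ∈ P)
    (hQ : IsKS P Q.ker) :
    ev hP ξ (Q.map (Pure.insT (t := T1) (fun w => biInv_T1_of_le (G.DL.le_std w))
      (fun w => finS_T1_lvl _ w) l)).ker =
      (l.map fun w => (Fermat.Agent.LT.CTree.sq w : ℂ) * lam hP ξ w).prod * ev hP ξ Q.ker := by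
  induction l with
  | nil =>
    rw [List.map_nil, List.prod_nil, one_mul]
    rfl
  | cons w l ih =>
    have hl' : ∀ v ∈ l, v ∈ P := fun v hv => hl v (List.mem_cons_of_mem _ hv)
    have h1 := ev_T1 hP (Q := Q.map (Pure.insT (t := T1)
      (fun w => biInv_T1_of_le (G.DL.le_std w)) (fun w => finS_T1_lvl _ w) l))
      (hl w List.mem_cons_self) (biInv_T1_of_le (G.DL.le_std w)) (finS_T1_lvl _ w) ξ
      (isKS_insT1 hP hl' hQ).sph
    rw [ih hl', ← mul_assoc] at h1
    rw [List.map_cons, List.prod_cons]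
    exact h1

include hP hR in
theorem isKS_insRam (hQ : IsKS P Q.ker) : IsKS P (Q.map insRam).ker :=
  isKS_insT1 hP (fun w hw => by obtain ⟨v, hv, rfl⟩ := mem_ramL.mp hw; exact hR v hv.1 hv.2) hQ

include hR in
theorem ev_insRam (ξ : Xi G.DL.toDatum P) (hQ : IsKS P Q.ker) :
    ev hP ξ (Q.map insRam).ker =
      (G.ramL_G.map fun w => (Fermat.Agent.LT.CTree.sq w : ℂ) * lam hP ξ w).prod *
        ev hP ξ Q.ker :=
  ev_insT1 hP ξ (fun w hw => by obtain ⟨v, hv, rfl⟩ := mem_ramL.mp hw; exact hR v hv.1 hv.2) hQ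

end Lside

/-! ### The `K`-side -/

section Kside

variable {P : Set (Pl K)} (hP : ∀ v ∈ P, G.DK.n v = 0) (hS : ∀ v : G.SpPl, v.1 ∈ P)
  {Q : LT.PS G.DK}

include hP hS in
theorem isKS_ins1K (hQ : IsKS P Q.ker) (s : G.Idx) : IsKS P (Q.map (ins1K s)).ker := by
  rcases s with v | g
  · exact isKS_T1 hP (hS v) (biTK G v) (fiTK G v) hQ
  · exact isKS_radK hP g.2.1 (radK_ppi g.2.1) hQ

include hP hS in
theorem isKS_insKL (hQ : IsKS P Q.ker) (l : List G.Idx) : IsKS P (Q.map (insKL l)).ker := by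
  induction l with
  | nil => exact hQ
  | cons s l ih => exact isKS_ins1K hP hS (Q := Q.map (insKL l)) ih s

include hS in
theorem ev_ins1K (ξ : Xi G.DK P) (hQ : IsKS P Q.ker) (s : G.Idx) :
    ev hP ξ (Q.map (ins1K s)).ker = evK (lam hP ξ) (sp hP ξ) s * ev hP ξ Q.ker := by
  rcases s with v | g
  · exact ev_T1 hP (hS v) (biTK G v) (fiTK G v) ξ hQ.sph
  · exact ev_radK hP g.2.1 (radK_ppi g.2.1) ξ hQ.sph

include hS in
theorem ev_insKL (ξ : Xi G.DK P) (hQ : IsKS P Q.ker) (l : List G.Idx) :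
    ev hP ξ (Q.map (insKL l)).ker =
      (l.map (evK (lam hP ξ) (sp hP ξ))).prod * ev hP ξ Q.ker := by
  induction l with
  | nil =>
    rw [List.map_nil, List.prod_nil, one_mul]
    rfl
  | cons s l ih =>
    have h1 : Q.map (insKL (s :: l)) = (Q.map (insKL l)).map (ins1K s) := rfl
    rw [h1, ev_ins1K hP hS ξ (isKS_insKL hP hS hQ l), ih, List.map_cons, List.prod_cons,
      mul_assoc]

end Kside

/-! ### The geometric theorem -/

theorem famL_ker (E : LocProj G) (Q : LT.PS G.DL.toDatum) (l : List G.Idx) :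
    (famL E Q l).ker = fun x z => opT E.tL E.lL
      (fun y => ∫ s, (Q.map (insLL l)).ker y s * (Q.map insRam).ker s z) x := by
  funext x z
  have h1 : famL E Q l = ((Q.map (insLL l)).mul (Q.map insRam)).map
      (Pure.insT E.biL E.finL E.lL) := rfl
  rw [h1, PS.ker_map_insT]
  congr 1
  funext y
  exact (PS.ker_mul _ _ y z).2.symm

theorem famK_ker (E : LocProj G) (Q : LT.PS G.DL.toDatum) (l : List G.Idx) :
    (famK E Q l).ker = fun x z => opT E.tBad E.lBad
      (fun y => ∫ s, ((Q.map aPure).map (insKL l)).ker y s * (Q.map aPure).ker s z) x := by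
  funext x z
  have h1 : famK E Q l = (((Q.map aPure).map (insKL l)).mul (Q.map aPure)).map
      (Pure.insT E.biInv_tBad E.finS_tBad E.lBad) := rfl
  rw [h1, PS.ker_map_insT]
  congr 1
  funext y
  exact (PS.ker_mul _ _ y z).2.symm

/-- **THE GEOMETRIC THEOREM FOR THE FAMILY**, in the format `κ ∘ a ∘ b`. -/
theorem exists_family_geo {wL : X G.DL.toDatum → ℝ≥0∞} {wK : X G.DK → ℝ≥0∞}
    (hM : GeoMain G wL wK) {E : LocProj G} {Q : LT.PS G.DL.toDatum} (h : FamHyp E Q)
    (l : List G.Idx) :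
    ∃ B : ℝ, ∀ u : G.SpPl, B < qv u.1 → ∀ n, Odd n →
      GeoEq G.DL G.DK wL wK
        (fun x z => opT E.tL E.lL (fun y =>
          ∫ s, (Q.map (insLL (pw u n ++ l))).ker y s * (Q.map insRam).ker s z) x)
        (fun x z => opT E.tBad E.lBad (fun y =>
          ∫ s, ((Q.map aPure).map (insKL (pw u n ++ l))).ker y s * (Q.map aPure).ker s z) x) := by
  obtain ⟨B, hB⟩ := exists_family_const hM h l
  refine ⟨B, fun u hu n hn => ?_⟩
  have h1 := hB u hu n hn
  rwa [famL_ker, famK_ker] at h1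

end GeoDat2

end Fermat.LT
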