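import Fermat.Agent.LT.G.LocProjHT
import Fermat.Agent.LTG.G.FamilyEv
import Fermat.Agent.LTG.Top.IfaceL
import Fermat.Agent.LT.G.TwEig

/-!
# LT/G: the local projectors for the level `HT w M`

* `LevHT G M` : the level condition on `L`;
* `projHT h : LocProj G`; `mem_lL_projHT`, `tL_projHT`.
* `opX_opX_comm`, `opX_TX`, `opX_RX` : commutation at different places;
* `opT_idem`, `sType_opT` : the image of the projector.
-/

set_option autoImplicit false
set_option linter.unusedSectionVars false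

open NumberField IsDedekindDomain Matrix MeasureTheory
open Fermat.Agent.LT.D
open Fermat.Agent.LT.B (upd upd_same upd_ne TX RX updI)
open Fermat.Agent.LT.CArch (IsTest hat)

namespace Fermat.LT

/-! ### Commutation of operators at different places -/

section comm

variable {F : Type} [Field F] [NumberField F] {D : Datum F}

variable {t : Pl F → G2 F → ℂ} (ht : ∀ w, BiInv (D.H w) (t w)) (hs : ∀ w, FinS (D.H w) (t w))

end comm

namespace GeoDat2

variable {K L : Type} [Field K] [NumberField K] [Field L] [NumberField L] [Algebra K L]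
variable {C : Cub K L}

/-- The level on `L` : full, or `HT w M` at places which are not fixed by `σ` or ramified over
`K`. -/
structure LevHT (G : GeoDat2 C) (M : ℕ) : Prop where
  lev : ∀ w, G.DL.n w = 0 ∨ (G.DL.H w = HT w M ∧ (pl C w ≠ w ∨ Ram C (G.down w) w))
  depth : M = 3 * G.mb

variable {G : GeoDat2 C} {M : ℕ}

theorem LevHT.H_eq (h : LevHT G M) : ∀ w, G.DL.n w ≠ 0 → G.DL.H w = HT w M := fun w hw =>
  ((h.lev w).resolve_left hw).1

theorem LevHT.split_or_ram (h : LevHT G M) {v : Pl K} (hv : G.DL.n (G.up v) ≠ 0) :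
    Split C v (G.up v) ∨ Ram C v (G.up v) := by
  rcases ((h.lev _).resolve_left hv).2 with hne | hr
  · rcases G.typ v with h1 | h1 | h1
    · exact Or.inl h1
    · exact absurd h1.fix hne
    · exact absurd h1.fix hne
  · rw [G.down_up] at hr
    exact Or.inr hr

theorem LevHT.n_symm_iff (h : LevHT G M) (w : Pl L) :
    G.DL.n ((pl C).symm w) = 0 ↔ G.DL.n w = 0 := by
  have := G.DL.n_pl_iff h.H_eq ((pl C).symm w)
  rw [Equiv.apply_symm_apply] at this
  exact this.symm

theorem LevHT.n_wj_iff (h : LevHT G M) (v : Pl K) (j : ℕ) :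
    G.DL.n (((pl C).symm)^[j] (G.up v)) = 0 ↔ G.DL.n (G.up v) = 0 := by
  induction j with
  | zero => rfl
  | succ j ih => rw [Function.iterate_succ_apply', h.n_symm_iff, ih]

theorem LevHT.n_down_iff (h : LevHT G M) (w : Pl L) :
    G.DL.n (G.up (G.down w)) = 0 ↔ G.DL.n w = 0 := by
  rcases G.up_down w with h1 | h1 | h1
  · rw [← h1]
  · conv_rhs => rw [h1]
    rw [G.DL.n_pl_iff h.H_eq]
  · conv_rhs => rw [h1]
    rw [G.DL.n_pl_iff h.H_eq, G.DL.n_pl_iff h.H_eq]

theorem LevHT.n_eq_zero_of_H (h : LevHT G M) {w : Pl L} (hw : G.DL.H w = stdH w) :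
    G.DL.n w = 0 := by
  by_contra hc
  exact TwDatum.HT_ne_stdH w M ((h.H_eq w hc).symm.trans hw)

theorem LevHT.HK_eq (h : LevHT G M) {v : Pl K} (hv : G.DL.n (G.up v) ≠ 0)
    (hs : Split C v (G.up v)) : G.DK.H v = HT v M := by
  have e : G.DK.H v = G.U0.H v := G.U_eq v fun h' => h'.not_split hs
  rw [e]
  ext g
  rw [G.H_split v hs, h.H_eq _ hv]
  exact HT_Inc M hs g

theorem ew_wj_Inc (v : Pl K) (M j : ℕ) (g : G2 K) :
    ew (((pl C).symm)^[j] (G.up v)) M (Cub.Inc g : G2 L) = ew (G.up v) M (Cub.Inc g) := by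
  induction j with
  | zero => rfl
  | succ j ih =>
    rw [← ih, Function.iterate_succ_apply',
      ← ew_pl C M ((pl C).symm (((pl C).symm)^[j] (G.up v))), C.S_Inc, Equiv.apply_symm_apply]

theorem finite_bad (G : GeoDat2 C) : {v | G.DL.n (G.up v) ≠ 0}.Finite :=
  G.DL.n_fin.preimage up_injective.injOn

theorem finite_badS (G : GeoDat2 C) :
    {v | G.DL.n (G.up v) ≠ 0 ∧ Split C v (G.up v)}.Finite :=
  G.finite_bad.subset fun _ hv => hv.1

theorem mem_badS {v : Pl K} : v ∈ G.finite_badS.toFinset.toList ↔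
    G.DL.n (G.up v) ≠ 0 ∧ Split C v (G.up v) := by
  rw [Finset.mem_toList, Set.Finite.mem_toFinset]
  rfl

open Classical in
/-- **The local projectors for the level `HT w M`.** -/
noncomputable def projHT (h : LevHT G M) : LocProj G where
  lK := G.finite_badS.toFinset.toList
  nodup := Finset.nodup_toList _
  split v hv := (mem_badS.mp hv).2
  ne v hv := by
    rw [h.H_eq _ (mem_badS.mp hv).1]
    exact TwDatum.HT_ne_stdH _ M
  tL w := if G.DL.n w = 0 then unitF (G.DL.H w) else ew w M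
  tK v := if G.DL.n (G.up v) ≠ 0 ∧ Split C v (G.up v) then ew v M else unitF (G.DK.H v)
  biL w := by
    by_cases hw : G.DL.n w = 0
    · rw [if_pos hw]; exact biInv_unitF _
    · rw [if_neg hw, h.H_eq w hw]; exact biInv_ew w M
  finL w := by
    by_cases hw : G.DL.n w = 0
    · rw [if_pos hw]; exact finS_unitF
    · rw [if_neg hw, h.H_eq w hw]; exact finS_ew w M
  biK v := by
    by_cases hv : G.DL.n (G.up v) ≠ 0 ∧ Split C v (G.up v)
    · rw [if_pos hv, h.HK_eq hv.1 hv.2]; exact biInv_ew v M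
    · rw [if_neg hv]; exact biInv_unitF _
  finK v := by
    by_cases hv : G.DL.n (G.up v) ≠ 0 ∧ Split C v (G.up v)
    · rw [if_pos hv, h.HK_eq hv.1 hv.2]; exact finS_ew v M
    · rw [if_neg hv]; exact finS_unitF
  inc v hv j g := by
    have hv := mem_badS.mp hv
    have h1 : ¬ G.DL.n (((pl C).symm)^[(j : ℕ)] (G.up v)) = 0 := fun h' =>
      hv.1 ((h.n_wj_iff v j).mp h')
    rw [if_neg h1, if_pos hv, ew_wj_Inc, ew_Inc M hv.2]
  idem v hv := by
    have hv := mem_badS.mp hv
    rw [if_pos hv, h.HK_eq hv.1 hv.2]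
    exact convF_ew v M
  bad v _ hn := by
    rw [if_neg hn, h.depth]

theorem mem_lK_projHT (h : LevHT G M) {v : Pl K} :
    v ∈ (projHT h).lK ↔ G.DL.n (G.up v) ≠ 0 ∧ Split C v (G.up v) := mem_badS

theorem mem_lAll_projHT (h : LevHT G M) {v : Pl K} :
    v ∈ (projHT h).lAll ↔ G.DL.n (G.up v) ≠ 0 := by
  rw [LocProj.mem_lAll, mem_lK_projHT]
  constructor
  · rintro (h1 | h1)
    · exact h1.1
    · exact h1.2
  · intro h1
    rcases h.split_or_ram h1 with h2 | h2
    · exact Or.inl ⟨h1, h2⟩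
    · exact Or.inr ⟨h2, h1⟩

theorem mem_lL_projHT (h : LevHT G M) {w : Pl L} : w ∈ (projHT h).lL ↔ G.DL.n w ≠ 0 := by
  rw [LocProj.mem_lL, mem_lAll_projHT, Ne, h.n_down_iff]

theorem tL_projHT (h : LevHT G M) {w : Pl L} (hw : G.DL.n w ≠ 0) :
    (projHT h).tL w = ew w M := if_neg hw

theorem idem_tL (h : LevHT G M) (w : Pl L) :
    convF (G.DL.H w) ((projHT h).tL w) ((projHT h).tL w) = (projHT h).tL w := by
  by_cases hw : G.DL.n w = 0
  · have e : (projHT h).tL w = unitF (G.DL.H w) := if_pos hw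
    rw [e, convF_unitF_left (biInv_unitF _)]
  · rw [tL_projHT h hw, h.H_eq w hw]
    exact convF_ew w M

/-- **The image of the projector.** -/
theorem sType_opT (h : LevHT G M) (φ : X G.DL.toDatum → ℂ) :
    Fermat.Agent.LT.Top.SType G.DL.toDatum M (opT (projHT h).tL (projHT h).lL φ) := by
  intro w hw
  have h1 := opX_opT_mem (projHT h).biL (projHT h).finL (projHT h).nodup_lL
    ((mem_lL_projHT h).mpr hw) (idem_tL h w) φ
  rwa [tL_projHT h hw] at h1

/-- **The projector on its image.** -/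
theorem opT_of_sType (h : LevHT G M) {φ : X G.DL.toDatum → ℂ}
    (hφ : Fermat.Agent.LT.Top.SType G.DL.toDatum M φ) :
    opT (projHT h).tL (projHT h).lL φ = φ := by
  refine opT_fix fun w hw => ?_
  have hw' := (mem_lL_projHT h).mp hw
  rw [tL_projHT h hw']
  exact hφ w hw'

end GeoDat2

end Fermat.LT
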