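import Fermat.Agent.LT.G.Core
import Fermat.Agent.LTG.G.FamilyEv
import Fermat.Agent.LTG.G.SpecL
import Fermat.Agent.LT.G.IsolateLarge

/-!
# LT/G: isolation of `π_L` and transfer to `K`

`descGeo_core_G` : from the two spectral expansions and the geometric identity.
(helper23)
-/

set_option autoImplicit false
set_option linter.unusedSectionVars false

open NumberField IsDedekindDomain Matrix MeasureTheory Set
open Fermat.LT Fermat.LT.GeoDat2 Fermat.Agent.LT.B Fermat.Agent.LT.CArch Fermat.Agent.LT.D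
  Fermat.Agent.LT.Top Fermat.Agent.LT.CTree
open scoped ComplexConjugate

namespace Fermat.Agent.LT.G

variable {K L : Type} [Field K] [NumberField K] [Field L] [NumberField L] [Algebra K L]
variable {C : Cub K L} {G : GeoDat2 C}

/-- normalisation -/
noncomputable def nrm_G : G.Idx → ℝ
  | .inl v => sq v.1
  | .inr _ => 1

/-- normalised eigenvalues on `L` -/
noncomputable def yyL_G (lam : Pl L → ℂ) (s : G.DL.I → ℂ) : G.Idx → ℝ
  | .inl v => (lam (G.up v.1)).re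
  | .inr g => (hat g.1 (s G.ι)).re

/-- normalised eigenvalues on `K` -/
noncomputable def yyK_G (lam : Pl K → ℂ) (s : G.DK.I → ℂ) : G.Idx → ℝ
  | .inl v => (lam v.1).re
  | .inr g => (hat g.1 (s G.uK.default)).re

theorem nrm_ne_zero_G (s : G.Idx) : (nrm_G s : ℂ) ≠ 0 := by
  rcases s with v | g
  · change ((sq v.1 : ℝ) : ℂ) ≠ 0
    exact_mod_cast (sq_pos v.1).ne'
  · change ((1 : ℝ) : ℂ) ≠ 0
    norm_num

theorem sq_up_G (v : G.SpPl) : sq (G.up v.1) = sq v.1 := by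
  unfold Fermat.Agent.LT.CTree.sq
  rw [v.2.1.q_eq]

/-- the list attached to a monomial -/
noncomputable def lst_G (m : G.Idx →₀ ℕ) : List G.Idx := (Finsupp.toMultiset m).toList

theorem prod_lst_G {R : Type*} [CommSemiring R] (m : G.Idx →₀ ℕ) (f : G.Idx → R) :
    ((lst_G m).map f).prod = m.prod fun s i => f s ^ i := by
  classical
  unfold lst_G
  rw [← Multiset.prod_coe, ← Multiset.map_coe, Multiset.coe_toList, Finsupp.toMultiset_map,
    Finsupp.prod_toMultiset, Finsupp.prod_mapDomain_index (fun _ => pow_zero _)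
      (fun _ _ _ => pow_add _ _ _)]

theorem prod_map_eq_G {lst' : List G.Idx} {e : G.Idx → ℂ} {y : G.Idx → ℝ}
    (h : ∀ s, e s = ((nrm_G s * y s : ℝ) : ℂ)) :
    (lst'.map e).prod = (((lst'.map nrm_G).prod : ℝ) : ℂ) * (((lst'.map y).prod : ℝ) : ℂ) := by
  induction lst' with
  | nil => simp
  | cons s l ih =>
    rw [List.map_cons, List.map_cons, List.map_cons, List.prod_cons, List.prod_cons,
      List.prod_cons, ih, h]
    push_cast
    ring

theorem prod_nrm_ne_zero_G (l : List G.Idx) : (((l.map nrm_G).prod : ℝ) : ℂ) ≠ 0 := by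
  induction l with
  | nil => simp
  | cons s l ih =>
    rw [List.map_cons, List.prod_cons, Complex.ofReal_mul]
    exact mul_ne_zero (nrm_ne_zero_G s) ih

section core

variable {M : ℕ} {lam : Pl L → ℝ} {φ : X G.DL.toDatum → ℂ}
variable {t : Pl L → G2 L → ℂ} {l : List (Pl L)}

theorem spPl_of_G (h : DescHyp_G G M lam φ) {v : Pl K} (hv : Split C v (G.up v))
    (hn : G.DL.n (G.up v) = 0) : G.DL.H (G.up v) = stdH (G.up v) ∧ G.U.H v = stdH v :=
  ⟨G.DL.toLevel.H_eq hn, G.U.H_eq (by rw [h.n_split v hv, hn])⟩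

theorem n_up_eq_zero_G (h : DescHyp_G G M lam φ) (v : G.SpPl) : G.DL.n (G.up v.1) = 0 := by
  by_contra hc
  have h1 := lev'_G h _ hc
  exact TwDatum.HT_ne_stdH _ _ (h1.symm.trans v.2.2.1)

theorem n_U_eq_zero_G (h : DescHyp_G G M lam φ) (v : G.SpPl) : G.U.n v.1 = 0 := by
  rw [h.n_split v.1 v.2.1, n_up_eq_zero_G h v]

/-- **Isolation.** -/
theorem descGeo_core_G (h : DescHyp_G G M lam φ) (hb : BadL_G h t l)
    (ht : ∀ w, BiInv (G.DL.H w) (t w)) (hs : ∀ w, FinS (G.DL.H w) (t w))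
    (SL : SpecI G.DL.toDatum (goodPl G.DL.toDatum)) (SK : SpecI G.DK (goodPl G.DK))
    {α : SL.Ξ → ℂ} {cK : SK.Ξ → ℂ} {IL IK : List G.Idx → ℂ}
    (hL : ∀ l' : List G.Idx, HasSum (fun ξ => (l'.map (evL (SL.lam ξ) (SL.sp ξ))).prod *
      (α ξ * trSub (SL.V ξ) (Lop_G G ht hs l))) (IL l'))
    (hK : ∀ l' : List G.Idx, HasSum (fun ξ => (l'.map (evK (SK.lam ξ) (SK.sp ξ))).prod *
      cK ξ) (IK l'))
    (hgeo : ∀ l' : List G.Idx, ∃ B : ℝ, ∀ u : G.SpPl, B < qv u.1 → ∀ n, Odd n →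
      IL (pw u n ++ l') = IK (pw u n ++ l'))
    {ξ₀ : SL.Ξ} (hφ : φ ∈ SL.V ξ₀) (hα : α ξ₀ ≠ 0) :
    ∃ (lamK : Pl K → ℝ) (Φ : X G.DK → ℂ), EForm G.DK lamK Φ ∧
      ∀ v, Split C v (G.up v) → G.DL.n (G.up v) = 0 → lamK v = lam (G.up v) := by
  classical
  -- real eigenvalues
  have realL : ∀ ξ s, evL (SL.lam ξ) (SL.sp ξ) s =
      ((nrm_G s * yyL_G (SL.lam ξ) (SL.sp ξ) s : ℝ) : ℂ) := by
    intro ξ s
    obtain ⟨ψ, hψ, hψ0⟩ := SL.ne ξ
    have hc := SL.cusp ξ ψ hψ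
    rcases s with v | g
    · have h1 := (SL.eig ξ ψ hψ).lam_real (isAut_of_isCusp hc) hc.bounded hψ0
        (w := G.up v.1) (n_up_eq_zero_G h v) (n_up_eq_zero_G h v)
      have h2 := Complex.conj_eq_iff_re.mp h1
      change (sq (G.up v.1) : ℂ) * SL.lam ξ (G.up v.1) =
        ((sq v.1 * (SL.lam ξ (G.up v.1)).re : ℝ) : ℂ)
      rw [Complex.ofReal_mul, h2, sq_up_G]
    · have h1 := (SL.eig ξ ψ hψ).hat_real (isAut_of_isCusp hc) hc.bounded hψ0 G.ι
        (isRealTest_iff.mpr g.2)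
      have h2 := Complex.conj_eq_iff_re.mp h1
      change hat g.1 (SL.sp ξ G.ι) = ((1 * (hat g.1 (SL.sp ξ G.ι)).re : ℝ) : ℂ)
      rw [one_mul, h2]
  have realK : ∀ ξ s, evK (SK.lam ξ) (SK.sp ξ) s =
      ((nrm_G s * yyK_G (SK.lam ξ) (SK.sp ξ) s : ℝ) : ℂ) := by
    intro ξ s
    obtain ⟨ψ, hψ, hψ0⟩ := SK.ne ξ
    have hc := SK.cusp ξ ψ hψ
    rcases s with v | g
    · have h1 := (SK.eig ξ ψ hψ).lam_real (isAut_of_isCusp hc) hc.bounded hψ0
        (w := v.1) (n_U_eq_zero_G h v) (n_U_eq_zero_G h v)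
      have h2 := Complex.conj_eq_iff_re.mp h1
      change (sq v.1 : ℂ) * SK.lam ξ v.1 = ((sq v.1 * (SK.lam ξ v.1).re : ℝ) : ℂ)
      rw [Complex.ofReal_mul, h2]
    · have h1 := (SK.eig ξ ψ hψ).hat_real (isAut_of_isCusp hc) hc.bounded hψ0 G.uK.default
        (isRealTest_iff.mpr g.2)
      have h2 := Complex.conj_eq_iff_re.mp h1
      change hat g.1 (SK.sp ξ G.uK.default) =
        ((1 * (hat g.1 (SK.sp ξ G.uK.default)).re : ℝ) : ℂ)
      rw [one_mul, h2]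
  -- bounds
  let R : G.Idx → ℝ := fun s => match s with
    | .inl v => (qn v.1 + 1) / sq v.1
    | .inr g => kL1 g.1
  have bdL : ∀ ξ s, |yyL_G (SL.lam ξ) (SL.sp ξ) s| ≤ R s := by
    intro ξ s
    obtain ⟨ψ, hψ, hψ0⟩ := SL.ne ξ
    have hc := SL.cusp ξ ψ hψ
    rcases s with v | g
    · have h1 := (SL.eig ξ ψ hψ).norm_lam_le' hc.bounded hψ0 (w := G.up v.1)
        (n_up_eq_zero_G h v) (n_up_eq_zero_G h v)
      refine (Complex.abs_re_le_norm _).trans (h1.trans (le_of_eq ?_))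
      change ((qn (G.up v.1) : ℝ) + 1) / sq (G.up v.1) = ((qn v.1 : ℝ) + 1) / sq v.1
      have h2 : (qn (G.up v.1) : ℝ) = qn v.1 := by
        rw [← qv_eq, ← qv_eq]
        exact v.2.1.q_eq
      rw [h2, sq_up_G]
    · exact (Complex.abs_re_le_norm _).trans
        ((SL.eig ξ ψ hψ).norm_hat_le hc.bounded hψ0 G.ι g.2.1)
  have bdK : ∀ ξ s, |yyK_G (SK.lam ξ) (SK.sp ξ) s| ≤ R s := by
    intro ξ s
    obtain ⟨ψ, hψ, hψ0⟩ := SK.ne ξ
    have hc := SK.cusp ξ ψ hψ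
    rcases s with v | g
    · exact (Complex.abs_re_le_norm _).trans ((SK.eig ξ ψ hψ).norm_lam_le' hc.bounded hψ0
        (w := v.1) (n_U_eq_zero_G h v) (n_U_eq_zero_G h v))
    · exact (Complex.abs_re_le_norm _).trans
        ((SK.eig ξ ψ hψ).norm_hat_le hc.bounded hψ0 G.uK.default g.2.1)
  -- summability
  have sL : Summable fun ξ => α ξ * trSub (SL.V ξ) (Lop_G G ht hs l) := by
    have := (hL []).summable
    simpa using this
  have sK : Summable cK := by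
    have := (hK []).summable
    simpa using this
  -- eigenvalues at `ξ₀`
  have hu := isEig_unique h.form.eig (SL.eig ξ₀ φ hφ) h.form.ne
  have y0 : ∀ v : G.SpPl, yyL_G (SL.lam ξ₀) (SL.sp ξ₀) (.inl v) = lam (G.up v.1) := by
    intro v
    have h1 := hu.1 (G.up v.1) (n_up_eq_zero_G h v)
    change (SL.lam ξ₀ (G.up v.1)).re = _
    rw [← h1, Complex.ofReal_re]
  obtain ⟨ξ', hy, -⟩ := exists_right_large (S := G.Idx) (R := R)
    (cL := fun ξ => α ξ * trSub (SL.V ξ) (Lop_G G ht hs l)) (cK := cK)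
    (yL := fun ξ => yyL_G (SL.lam ξ) (SL.sp ξ)) (yK := fun ξ => yyK_G (SK.lam ξ) (SK.sp ξ))
    bdL bdK sL sK (U := Set.range Sum.inl)
    (q := Sum.elim (fun v : G.SpPl => qv v.1) fun _ => 0)
    (fun m => by
      obtain ⟨B, hB⟩ := hgeo (lst_G m)
      refine ⟨B, ?_⟩
      rintro _ ⟨u, rfl⟩ hq n hn
      have e := hB u hq n hn
      rw [← (hL _).tsum_eq, ← (hK _).tsum_eq] at e
      set l' := pw u n ++ lst_G m with hl'
      have p1 : ∀ y : G.Idx → ℝ, (l'.map y).prod = mono m y * y (.inl u) ^ n := by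
        intro y
        rw [hl', List.map_append, List.prod_append, prod_lst_G, List.map_replicate,
          List.prod_replicate, mul_comm]
        rfl
      have e1 : ∀ ξ, (l'.map (evL (SL.lam ξ) (SL.sp ξ))).prod *
          (α ξ * trSub (SL.V ξ) (Lop_G G ht hs l)) = (((l'.map nrm_G).prod : ℝ) : ℂ) *
          ((α ξ * trSub (SL.V ξ) (Lop_G G ht hs l)) * ((mono m (yyL_G (SL.lam ξ) (SL.sp ξ)) *
            yyL_G (SL.lam ξ) (SL.sp ξ) (.inl u) ^ n : ℝ) : ℂ)) := by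
        intro ξ
        rw [prod_map_eq_G (realL ξ), p1 (yyL_G (SL.lam ξ) (SL.sp ξ))]
        ring
      have e2 : ∀ ξ, (l'.map (evK (SK.lam ξ) (SK.sp ξ))).prod * cK ξ =
          (((l'.map nrm_G).prod : ℝ) : ℂ) *
          (cK ξ * ((mono m (yyK_G (SK.lam ξ) (SK.sp ξ)) *
            yyK_G (SK.lam ξ) (SK.sp ξ) (.inl u) ^ n : ℝ) : ℂ)) := by
        intro ξ
        rw [prod_map_eq_G (realK ξ), p1 (yyK_G (SK.lam ξ) (SK.sp ξ))]
        ring
      simp only [e1, e2, tsum_mul_left] at e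
      exact mul_left_cancel₀ (prod_nrm_ne_zero_G l') e)
    (ξ₀ := ξ₀)
    (fun B => by
      obtain ⟨u, hu1, hu2, hu3, hu4⟩ := h.big B
      refine ⟨.inl ⟨u, hu1, spPl_of_G h hu1 hu2⟩, ⟨_, rfl⟩, hu3, ?_⟩
      rw [y0]
      exact hu4)
    (mul_ne_zero hα (trSub_ne_zero_G SL hb ht hs hφ))
    (fun ξ hξ hne => by
      refine eq_of_trSub_ne_G SL hb ht hs hφ (right_ne_zero_of_mul hne) (fun v hv hn => ?_)
        (fun g hg hr => ?_)
      · have h1 := congrFun hξ (.inl ⟨v, hv, spPl_of_G h hv hn⟩)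
        rw [y0] at h1
        have h2 := realL ξ (.inl ⟨v, hv, spPl_of_G h hv hn⟩)
        change (sq (G.up v) : ℂ) * SL.lam ξ (G.up v) =
          ((sq v * yyL_G (SL.lam ξ) (SL.sp ξ) (.inl ⟨v, hv, spPl_of_G h hv hn⟩) : ℝ) : ℂ) at h2
        rw [h1, Complex.ofReal_mul, ← sq_up_G ⟨v, hv, spPl_of_G h hv hn⟩] at h2
        refine mul_left_cancel₀ ?_ h2
        exact_mod_cast (sq_pos (G.up v)).ne'
      · have h1 := congrFun hξ (.inr ⟨g, hg, hr⟩)
        have h2 := realL ξ (.inr ⟨g, hg, hr⟩)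
        have h3 := realL ξ₀ (.inr ⟨g, hg, hr⟩)
        rw [h1, ← h3] at h2
        refine h2.trans ?_
        exact (hu.2 G.ι g hg).symm)
  -- the form on `K`
  obtain ⟨Φ, hΦ, hΦ0⟩ := SK.ne ξ'
  have hc := SK.cusp ξ' Φ hΦ
  have hE := SK.eig ξ' Φ hΦ
  refine ⟨fun v => (SK.lam ξ' v).re, Φ, ⟨hc, ?_, hΦ0⟩, fun v hv hn => ?_⟩
  · refine isEig_congr hE (fun v hv => ?_) (fun i g hg hr => ?_)
    · have h2 := hE.lam_real (isAut_of_isCusp hc) hc.bounded hΦ0 hv hv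
      exact (Complex.conj_eq_iff_re.mp h2).symm
    · have hi : i = G.uK.default := G.uK.uniq i
      rw [hi]
      have h1 := congrFun hy (.inr ⟨g, hg, hr⟩)
      have h2 := realK ξ' (.inr ⟨g, hg, hr⟩)
      have h3 := realL ξ₀ (.inr ⟨g, hg, hr⟩)
      have h1' : yyK_G (SK.lam ξ') (SK.sp ξ') (.inr ⟨g, hg, hr⟩) =
          yyL_G (SL.lam ξ₀) (SL.sp ξ₀) (.inr ⟨g, hg, hr⟩) := h1
      rw [h1', ← h3] at h2
      refine h2.trans ?_
      exact (hu.2 G.ι g hg).symm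
  · have h1 : yyK_G (SK.lam ξ') (SK.sp ξ') (.inl ⟨v, hv, spPl_of_G h hv hn⟩) =
        yyL_G (SL.lam ξ₀) (SL.sp ξ₀) (.inl ⟨v, hv, spPl_of_G h hv hn⟩) := congrFun hy _
    rw [y0] at h1
    exact h1

end core

end Fermat.Agent.LT.G
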