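import Fermat.Agent.LT.G.GeoMain
import Fermat.Agent.LTG.G.Family
import Fermat.Agent.LTG.Geo.Main
import Fermat.Agent.LTG.Geo.Norms

/-!
# LT/G: the geometric theorem in the form `GeoMain`
-/

set_option autoImplicit false
set_option linter.unusedSectionVars false

open NumberField IsDedekindDomain Matrix MeasureTheory Set
open Fermat.Agent.LT.D hiding pmk_mul pmk_inv pmk_one pmk_surj pmk_eq_iff comp pmk PG
open Fermat.Agent.LT.B Fermat.Agent.LT.F
open scoped ENNReal

namespace Fermat.LT

variable {K L : Type} [Field K] [NumberField K] [Field L] [NumberField L] [Algebra K L]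

namespace GeoDat2

variable {C : Cub K L} {G : GeoDat2 C}

/-- **GEO THEOREM** in the form `GeoMain`. -/
theorem geoMain (hR : ∀ (γ : G2 K) (δ : G2 L), Corr C γ δ → LocRam G γ δ) (hN : Norms G)
    {wL : X G.DL.toDatum → ℝ≥0∞} (hwL : IsWeight (PG L) wL)
    {wK : X G.DK → ℝ≥0∞} (hwK : IsWeight (PG K) wK) : GeoMain G wL wK := by
  intro k hk _ hL hK
  refine ⟨?_, ?_, geo_identity hR hN hk hL hK hwL hwK⟩
  · refine integrable_wt hwL ?_ ?_
    · exact (Measurable.tsum fun δ =>
        (G.DL.continuous_ker_tw k δ).measurable).aestronglyMeasurable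
    · refine ne_top_of_le_ne_top (G.DL.lintegral_ne_top k hL hwL) ?_
      exact lintegral_mono fun x => mul_le_mul_right (enorm_autK_le _ _ _) (wL x)
  · refine integrable_wt hwK ?_ ?_
    · exact (Measurable.tsum fun δ => ((bPure k).continuous_ker.comp
        (continuous_id.prodMk (continuous_id.const_smul δ))).measurable).aestronglyMeasurable
    · refine ne_top_of_le_ne_top ((bPure k).lintegral_ne_top hK hwK) ?_
      exact lintegral_mono fun x => mul_le_mul_right (enorm_autK_le _ _ _) (wK x)

/-- **(CL3)** -/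
theorem norms (G : GeoDat2 C) (hζ : ∃ ζ : K, IsPrimitiveRoot ζ 3) : Norms G :=
  fun γ hγ hin hra => exists_corr_G G hζ γ hγ hin hra

end GeoDat2

end Fermat.LT
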