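import Fermat.Agent.LT.G.Main
import Fermat.Agent.LTG.CTree.KillTop
import Fermat.Agent.LTG.G.LocProjHT
import Fermat.Agent.LTG.G.MainOf

/-!
# LT/G: `DescGeo_G`
(helper23)
-/

set_option autoImplicit false

open NumberField IsDedekindDomain Matrix MeasureTheory Set
open Fermat.LT Fermat.LT.GeoDat2 Fermat.Agent.LT.B Fermat.Agent.LT.D Fermat.Agent.LT.Top

namespace Fermat.Agent.LT.G

variable {K L : Type} [Field K] [NumberField K] [Field L] [NumberField L] [Algebra K L]
variable {C : Cub K L} {G : GeoDat2 C} {M : ℕ} {lam : Pl L → ℝ} {φ : X G.DL.toDatum → ℂ}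

theorem levHT_G (h : DescHyp_G G M lam φ) : LevHT G M := ⟨h.lev, h.depth⟩

theorem badL_G (h : DescHyp_G G M lam φ) :
    BadL_G h (projHT (levHT_G h)).tL (projHT (levHT_G h)).lL where
  nodup := (projHT (levHT_G h)).nodup_lL
  mem _ := mem_lL_projHT (levHT_G h)
  eq _ hw := tL_projHT (levHT_G h) ((mem_lL_projHT (levHT_G h)).mp hw)

/-- **Output of piece G.** -/
theorem descGeo_G : DescGeo_G := by
  intro K L _ _ _ _ _ C G M lam φ h
  obtain ⟨Q, h1, h2, h3, h4, h5, -, h6, h7, h8⟩ := CTree.exists_killer_G h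
  exact descGeo_of_G h ⟨h1, h2, h3, h4, h5, h6, h7, h8⟩ (badL_G h)

end Fermat.Agent.LT.G
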